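import Fermat.Agent.Jac.Picard.Proper

/-!
# The Picard scheme of degree zero of a smooth proper curve over an algebraically closed field

`exists_represents_algEquivZeroCut`: a proper smooth integral curve `C` with a rational point `ε`
over an algebraically closed field has a Jacobian, that is, a smooth proper geometrically connected
scheme representing the rigidified line bundles which are algebraically equivalent to zero on every
fibre. It is the statement of `S25`, and `AbVar/Curve/Rigid` uses it for the theorem of the cube.
The proof:

1. `C` is covered by two affine charts, each finite over the affine line (`Jac/Scheme/Cover`). Line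
   bundles on `C` over an affine base are then pairs of lattices (`Jac/LB`, dictionary in
   `Jac/Scheme/Sections`), and algebraic equivalence to zero is degree zero (`Jac/Scheme/Abel`).
2. Frames of spaces of sections give affine smooth charts through every bundle of degree zero over
   an algebraically closed field (`Jac/Chart`, `Jac/Field`).
3. The classes of degree zero form a Zariski sheaf (`Jac/Scheme/Classes`) covered by these charts
   (`Jac/Picard/Functor`), so they have a universal element on a smooth scheme `J`
   (`Jac/Scheme/Atlas`, `Jac/Picard/Proper`).
4. A proper geometrically integral family through every bundle of degree zero maps onto `J`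
   (`Jac/Scheme/Abel/Rigidified`), and bundles over a valuation ring which agree generically are
   isomorphic (`Jac/Sep`): `J` is proper and geometrically connected (`Jac/Picard/Proper`).
5. Classes are turned back into bundles, and the zero section is the point of the trivial bundle.

## References

* J. S. Milne, *Jacobian Varieties*, in *Arithmetic Geometry* (Cornell, Silverman, eds.).
* S. Bosch, W. Lütkebohmert, M. Raynaud, *Néron Models*, Chapters 8 and 9.

In place of symmetric powers or Hilbert schemes, the representing scheme is glued from affine
charts of frames, a bundle being a pair of lattices on two affine charts of the curve.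
-/

set_option autoImplicit false

universe u

noncomputable section

open CategoryTheory AlgebraicGeometry AlgebraicGeometry.RelPicard NeronModelInfra
  GoodReductionJacobian

namespace Fermat.Agent.Jac

/-- A proper smooth integral curve with a rational point over an algebraically closed field has a
Jacobian: a smooth proper connected scheme representing algebraically trivial bundles. -/
theorem exists_represents_algEquivZeroCut
    (k : Type u) [Field k] [IsAlgClosed k] {C : Scheme.{u}} (c : C ⟶ Spec (CommRingCat.of k))
    [IsProper c] [SmoothOfRelativeDimension 1 c] [IsIntegral C]
    (ε : SchemeHomOver (𝟙 (Spec (CommRingCat.of k))) c) :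
    ∃ D : RelativePic0Designation k c,
      Nonempty (RepresentsRelSubPic c ε (algEquivZeroCut c ε) D) ∧
        Smooth D.toBase ∧ IsProper D.toBase ∧ GeometricallyConnected D.toBase := by
  -- Steps 1-4: a universal class of degree zero, on a smooth proper connected scheme.
  obtain ⟨cov⟩ := exists_curveCover c ε
  obtain ⟨J, f, P, hP, hsm⟩ := cov.exists_universal_smooth
  obtain ⟨hproper, hconn⟩ := hP.isProper_and_geometricallyConnected cov
  -- Step 5: a bundle `M` in the universal class, and the point `g₀` of the trivial bundle.
  obtain ⟨M, hM, rfl⟩ := P.exists_rep
  obtain ⟨g₀, hg₀, -⟩ := hP (𝟙 _)
    (Cls0.of (RigidifiedLineBundle.unit (𝟙 _)) (fibrewiseAlgEquivZero_unit _))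
  refine ⟨⟨J, f, g₀.1, g₀.2⟩, ⟨⟨M, hM, fun t N hN => ?_, Cls0.of_eq_iff.mp hg₀⟩⟩, hsm,
    hproper, hconn⟩
  -- The universal property, read on bundles.
  obtain ⟨g, hg, huniq⟩ := hP t (Cls0.of N hN)
  exact ⟨g, Cls0.of_eq_iff.mp hg, fun g' hg' => huniq g' (Cls0.of_eq_iff.mpr hg')⟩

end Fermat.Agent.Jac

end
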