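import Mathlib

/-!
# Projective modules and maps which are injective on every fibre
-/

set_option autoImplicit false

universe u

noncomputable section

open TensorProduct

namespace Fermat.Agent.Jac

variable {R : Type u} [CommRing R] {M N : Type u} [AddCommGroup M] [Module R M] [AddCommGroup N]
    [Module R N]

/-- A map from a free module of finite rank to a projective module which is injective on every fibre
splits. -/
theorem exists_comp_eq_id_of_fibres {n : Type*} [Fintype n] {W : Type u} [AddCommGroup W]
    [Module R W] [Module.Projective R W] (c : (n → R) →ₗ[R] W)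
    (hc : ∀ p : PrimeSpectrum R, Function.Injective (c.baseChange p.asIdeal.ResidueField)) :
    ∃ h : W →ₗ[R] (n → R), h ∘ₗ c = LinearMap.id := by
  classical
  let I : Ideal R :=
    { carrier := {d | ∃ h : W →ₗ[R] (n → R), h ∘ₗ c = d • LinearMap.id}
      add_mem' := fun ⟨h, hh⟩ ⟨h', hh'⟩ => ⟨h + h', by rw [LinearMap.add_comp, hh, hh', add_smul]⟩
      zero_mem' := ⟨0, by simp⟩
      smul_mem' := fun a _ ⟨h, hh⟩ =>
        ⟨a • h, by rw [LinearMap.smul_comp, hh, smul_smul, smul_eq_mul]⟩ }
  suffices I = ⊤ by
    obtain ⟨h, hh⟩ : (1 : R) ∈ I := this ▸ Submodule.mem_top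
    exact ⟨h, by rw [hh, one_smul]⟩
  by_contra hI
  obtain ⟨m, hm, hle⟩ := Ideal.exists_le_maximal I hI
  let κ := m.ResidueField
  obtain ⟨l, hl⟩ := (c.baseChange κ).exists_leftInverse_of_injective
    (LinearMap.ker_eq_bot.mpr (hc ⟨m, hm.isPrime⟩))
  obtain ⟨h, hh⟩ := Module.projective_lifting_property (TensorProduct.mk R κ (n → R) 1)
    (l.restrictScalars R ∘ₗ TensorProduct.mk R κ W 1)
    (TensorProduct.mk_surjective R (n → R) κ (Ideal.algebraMap_residueField_surjective m))
  have hu : (h ∘ₗ c).baseChange κ = LinearMap.id := by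
    ext v
    simpa using ((LinearMap.congr_fun hh (c (Pi.single v 1))).trans
      (LinearMap.congr_fun hl (1 ⊗ₜ Pi.single v 1)))
  have hdet : LinearMap.det (h ∘ₗ c) ∉ m := fun hd => by
    have h1 := LinearMap.det_baseChange (R := R) (A := κ) (h ∘ₗ c)
    rw [hu, LinearMap.det_id, eq_comm, ← sub_eq_zero] at h1
    have h0 : algebraMap R κ (LinearMap.det (h ∘ₗ c)) = 0 :=
      Ideal.algebraMap_residueField_eq_zero.mpr hd
    rw [h0, zero_sub, neg_eq_zero] at h1
    exact one_ne_zero h1
  refine hdet (hle ⟨Matrix.toLin' (LinearMap.toMatrix' (h ∘ₗ c)).adjugate ∘ₗ h, ?_⟩)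
  rw [LinearMap.comp_assoc]
  nth_rewrite 2 [← Matrix.toLin'_toMatrix' (h ∘ₗ c)]
  rw [← Matrix.toLin'_mul, Matrix.adjugate_mul, map_smul, Matrix.toLin'_one,
    LinearMap.det_toMatrix']

/-- The inclusion of the functions on a finite set. -/
def finiteInclusion {ι : Type u} (s : Finset ι) : (s → R) →ₗ[R] ι →₀ R :=
  Fintype.linearCombination R fun i : s => Finsupp.single i.1 1

/-- The restriction to a finite set. -/
def finiteRestriction {ι : Type u} (s : Finset ι) : (ι →₀ R) →ₗ[R] s → R :=
  LinearMap.pi fun i => Finsupp.lapply i.1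

theorem finiteRestriction_comp_inclusion {ι : Type u} (s : Finset ι) :
    finiteRestriction (R := R) s ∘ₗ finiteInclusion s = LinearMap.id := by
  classical
  ext i j
  simp only [LinearMap.comp_apply, LinearMap.single_apply, finiteInclusion,
    Fintype.linearCombination_apply_single, one_smul, LinearMap.id_apply, finiteRestriction,
    LinearMap.pi_apply, Finsupp.lapply_apply, Finsupp.single_apply, Pi.single_apply]
  by_cases h : i = j
  · subst h; simp
  · rw [if_neg fun hh => h (Subtype.ext hh), if_neg fun hh => h hh.symm]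

theorem exists_mem_range_finiteInclusion {ι : Type u} {P : Type u} [AddCommGroup P] [Module R P]
    (y : (ι →₀ R) ⊗[R] P) : ∃ s : Finset ι, ∃ z, (finiteInclusion (R := R) s).rTensor P z = y := by
  classical
  obtain ⟨S, rfl⟩ := TensorProduct.exists_finset y
  let s : Finset ι := S.biUnion fun i => i.1.support
  refine ⟨s, ∑ i ∈ S, finiteRestriction (R := R) s i.1 ⊗ₜ i.2, ?_⟩
  rw [map_sum]
  refine Finset.sum_congr rfl fun i hi => ?_
  rw [LinearMap.rTensor_tmul]
  congr 1
  conv_rhs => rw [← Finsupp.sum_single i.1]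
  rw [Finsupp.sum_of_support_subset _ (s := s)
    (Finset.subset_biUnion_of_mem (fun i => i.1.support) hi) _
    (fun _ _ => Finsupp.single_zero _), ← Finset.sum_coe_sort s]
  simp [finiteInclusion, finiteRestriction, Fintype.linearCombination_apply]

/-- A map of projective modules which is injective on every fibre is universally injective. -/
theorem rTensor_injective_of_fibres [Module.Projective R M] [Module.Projective R N] (f : M →ₗ[R] N)
    (hf : ∀ p : PrimeSpectrum R, Function.Injective (f.baseChange p.asIdeal.ResidueField))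
    (P : Type u) [AddCommGroup P] [Module R P] : Function.Injective (f.rTensor P) := by
  obtain ⟨sM, hsM⟩ := Module.projective_def.mp ‹Module.Projective R M›
  let q : (M →₀ R) →ₗ[R] M := Finsupp.linearCombination R id
  have hq : q ∘ₗ sM = LinearMap.id := LinearMap.ext hsM
  rw [injective_iff_map_eq_zero]
  intro x hx
  obtain ⟨s, z, hz⟩ := exists_mem_range_finiteInclusion (sM.rTensor P x)
  let a : (s → R) →ₗ[R] N := f ∘ₗ q ∘ₗ finiteInclusion s
  let b : (s → R) →ₗ[R] M →₀ R := finiteInclusion s - sM ∘ₗ q ∘ₗ finiteInclusion s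
  obtain ⟨h, hh⟩ := exists_comp_eq_id_of_fibres (a.prod b) fun p => by
    let κ := p.asIdeal.ResidueField
    rw [injective_iff_map_eq_zero]
    intro w hw
    have h1 : a.baseChange κ w = 0 := by
      rw [← LinearMap.fst_prod a b, LinearMap.baseChange_comp, LinearMap.comp_apply, hw, map_zero]
    have h2 : b.baseChange κ w = 0 := by
      rw [← LinearMap.snd_prod a b, LinearMap.baseChange_comp, LinearMap.comp_apply, hw, map_zero]
    have h3 : q.baseChange κ ((finiteInclusion s).baseChange κ w) = 0 := hf p (by
      simpa [a, LinearMap.baseChange_comp] using h1)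
    have h4 : (finiteInclusion (R := R) s).baseChange κ w = 0 := by
      simpa [b, LinearMap.baseChange_comp, LinearMap.baseChange_sub, h3] using h2
    simpa [← LinearMap.comp_apply, ← LinearMap.baseChange_comp,
      finiteRestriction_comp_inclusion] using
      congr((finiteRestriction (R := R) s).baseChange κ $h4)
  have hqz : q.rTensor P ((finiteInclusion s).rTensor P z) = x := by
    rw [hz, ← LinearMap.rTensor_comp_apply, hq, LinearMap.rTensor_id, LinearMap.id_apply]
  have ha : a.rTensor P z = 0 := by
    simp only [a, LinearMap.rTensor_comp, LinearMap.comp_apply, hqz, hx]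
  have hb : b.rTensor P z = 0 := by
    simp only [b, LinearMap.rTensor_sub, LinearMap.rTensor_comp]
    change (finiteInclusion s).rTensor P z -
      sM.rTensor P (q.rTensor P ((finiteInclusion s).rTensor P z)) = 0
    rw [hqz, hz, sub_self]
  have key : a.prod b = LinearMap.inl R N _ ∘ₗ a + LinearMap.inr R N _ ∘ₗ b := by
    ext v <;> simp
  have hz0 : z = 0 := by
    have := LinearMap.congr_fun (congr_arg (LinearMap.rTensor P) hh) z
    simpa [key, LinearMap.comp_add, LinearMap.rTensor_add, LinearMap.rTensor_comp, ha, hb,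
      eq_comm] using this
  rw [← hqz, hz0, map_zero, map_zero]

/-- A map of projective modules injective on every fibre is injective. -/
theorem injective_of_fibres [Module.Projective R M] [Module.Projective R N] (f : M →ₗ[R] N)
    (hf : ∀ p : PrimeSpectrum R, Function.Injective (f.baseChange p.asIdeal.ResidueField)) :
    Function.Injective f := fun x y h =>
  (TensorProduct.rid R M).symm.injective
    (rTensor_injective_of_fibres f hf R (by simp [h]))

/-- The scalars act faithfully on a module which is free of rank one locally. -/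
private theorem injective_toModuleEnd_of_locally_free
    (h : ∀ p : PrimeSpectrum R, ∃ r : R, r ∉ p.asIdeal ∧
      Nonempty (LocalizedModule (Submonoid.powers r) M ≃ₗ[Localization (Submonoid.powers r)]
        Localization (Submonoid.powers r))) :
    Function.Injective (Module.toModuleEnd R (S := R) M) := by
  -- A scalar killing `M` vanishes near every point.
  refine (injective_iff_map_eq_zero _).mpr fun a ha => ?_
  by_contra ha0
  have hne : LinearMap.ker (LinearMap.toSpanSingleton R R a) ≠ ⊤ := fun htop => ha0 (by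
    simpa using htop.ge (Submodule.mem_top (x := (1 : R))))
  obtain ⟨m, hm, hle⟩ := Ideal.exists_le_maximal _ hne
  obtain ⟨r, hr, ⟨e⟩⟩ := h ⟨m, hm.isPrime⟩
  let S := Submonoid.powers r
  obtain ⟨⟨x, t⟩, hxt⟩ := IsLocalizedModule.mk'_surjective S (LocalizedModule.mkLinearMap S M)
    (e.symm 1)
  have hax : a • e.symm 1 = 0 := by
    rw [← hxt, Function.uncurry_apply_pair, ← IsLocalizedModule.mk'_smul,
      show a • x = 0 from LinearMap.congr_fun ha x, IsLocalizedModule.mk'_zero]
  have h1 : algebraMap R (Localization S) a = 0 := by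
    rw [← e.symm.map_eq_zero_iff, ← mul_one (algebraMap R _ a), ← smul_eq_mul,
      map_smul, algebraMap_smul, hax]
  obtain ⟨⟨_, n, rfl⟩, hn⟩ := (IsLocalization.map_eq_zero_iff S _ a).mp h1
  exact hr (hm.isPrime.mem_of_pow_mem n (hle (by simpa [LinearMap.mem_ker] using hn)))

/-- Every endomorphism of a finite module which is free of rank one locally is a scalar. -/
private theorem surjective_toModuleEnd_of_locally_free [Module.Finite R M]
    (h : ∀ p : PrimeSpectrum R, ∃ r : R, r ∉ p.asIdeal ∧
      Nonempty (LocalizedModule (Submonoid.powers r) M ≃ₗ[Localization (Submonoid.powers r)]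
        Localization (Submonoid.powers r))) :
    Function.Surjective (Module.toModuleEnd R (S := R) M) := fun φ => by
  -- The `d` with `d • φ` a scalar form an ideal, prime to every point.
  let I : Ideal R :=
    { carrier := {d | ∃ a : R, d • φ = Module.toModuleEnd R (S := R) M a}
      add_mem' := fun ⟨a, ha⟩ ⟨b, hb⟩ => ⟨a + b, by rw [add_smul, ha, hb, map_add]⟩
      zero_mem' := ⟨0, by rw [zero_smul, map_zero]⟩
      smul_mem' := fun c _ ⟨a, ha⟩ => ⟨c * a, LinearMap.ext fun x => by
        simpa [mul_smul] using congr(c • $(LinearMap.congr_fun ha x))⟩ }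
  suffices I = ⊤ by
    obtain ⟨a, ha⟩ : (1 : R) ∈ I := this ▸ Submodule.mem_top
    exact ⟨a, by rw [← ha, one_smul]⟩
  by_contra hI
  obtain ⟨m, hm, hle⟩ := Ideal.exists_le_maximal I hI
  obtain ⟨r, hr, ⟨e⟩⟩ := h ⟨m, hm.isPrime⟩
  let S := Submonoid.powers r
  let ι := LocalizedModule.mkLinearMap S M
  let φ' := IsLocalizedModule.map S ι ι φ
  let φ'' := φ'.extendScalarsOfIsLocalization S (Localization S)
  obtain ⟨⟨c, t⟩, hct⟩ := IsLocalization.mk'_surjective S (e (φ'' (e.symm 1)))
  have hφ : ∀ x : M, (t : R) • ι (φ x) = c • ι x := fun x => by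
    apply e.injective
    have hx : ι x = e (ι x) • e.symm 1 := by
      rw [← map_smul, smul_eq_mul, mul_one, LinearEquiv.symm_apply_apply]
    have h1 : φ'' (ι x) = ι (φ x) := IsLocalizedModule.map_apply S ι ι φ x
    rw [← algebraMap_smul (Localization S) (t : R), ← algebraMap_smul (Localization S) c, ← h1,
      map_smul, map_smul]
    conv_lhs => rw [hx, map_smul, map_smul]
    rw [← hct, smul_eq_mul, smul_eq_mul, smul_eq_mul]
    have hspec := IsLocalization.mk'_spec' (Localization S) c t
    linear_combination (e (ι x)) * hspec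
  obtain ⟨s, hsfin⟩ := Module.Finite.fg_top (R := R) (M := M)
  have hx : ∀ x : M, ∃ n, r ^ n • ((t : R) • φ x - c • x) = 0 := fun x => by
    obtain ⟨⟨_, n, rfl⟩, hn⟩ := (IsLocalizedModule.eq_zero_iff S ι).mp
      (show ι ((t : R) • φ x - c • x) = 0 by rw [map_sub, map_smul, map_smul, hφ, sub_self])
    exact ⟨n, hn⟩
  choose n hn using hx
  have hmem : r ^ s.sup n * t ∈ I := ⟨r ^ s.sup n * c, LinearMap.ext_on hsfin fun x hx => by
    obtain ⟨l, hl⟩ := Nat.exists_eq_add_of_le (Finset.le_sup (f := n) hx)
    have := congr(r ^ l • $(hn x))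
    rw [smul_zero, smul_smul, ← pow_add, add_comm, ← hl, smul_sub, sub_eq_zero, smul_smul,
      smul_smul] at this
    simpa [mul_smul] using this⟩
  obtain ⟨_, n', hn'⟩ := t
  exact hr (hm.isPrime.mem_of_pow_mem (s.sup n + n') (by
    rw [pow_add]; exact hle (by simpa [← hn'] using hmem)))

/-- A module is invertible if it is free of rank one locally. -/
theorem invertible_of_locally_free [Module.Finite R M]
    (h : ∀ p : PrimeSpectrum R, ∃ r : R, r ∉ p.asIdeal ∧
      Nonempty (LocalizedModule (Submonoid.powers r) M ≃ₗ[Localization (Submonoid.powers r)]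
        Localization (Submonoid.powers r))) : Module.Invertible R M := by
  have key : Function.Bijective (Module.toModuleEnd R (S := R) M) :=
    ⟨injective_toModuleEnd_of_locally_free h, surjective_toModuleEnd_of_locally_free h⟩
  -- `M` is finitely presented and projective, with endomorphisms `R`, so `M^∨ ⊗ M ≅ R`.
  choose r hr e using h
  have hs : Ideal.span (Set.range r) = ⊤ := by
    by_contra hne
    obtain ⟨m, hm, hle⟩ := Ideal.exists_le_maximal _ hne
    exact hr ⟨m, hm.isPrime⟩ (hle (Ideal.subset_span ⟨_, rfl⟩))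
  have : Module.FinitePresentation R M :=
    Module.FinitePresentation.of_localizationSpan (Set.range r) hs fun g => by
      obtain ⟨p, hp⟩ := g.2
      obtain ⟨g, hg⟩ := g
      subst hp
      exact Module.finitePresentation_of_surjective (e p).some.symm.toLinearMap
        (e p).some.symm.surjective
        (by simp [LinearEquiv.ker, Submodule.fg_bot])
  have : Module.Projective R M := by
    refine Module.freeLocus_eq_univ_iff.mp (Set.eq_univ_of_forall fun p => ?_)
    exact Module.basicOpen_subset_freeLocus_iff.mpr (Module.Projective.of_equiv (e p).some.symm)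
      (by simpa using hr p)
  exact .right ((dualTensorHomEquiv R M M) ≪≫ₗ
    (LinearEquiv.ofBijective ({ toFun := Module.toModuleEnd R (S := R) M
                                map_add' := map_add _
                                map_smul' := fun a b => LinearMap.ext fun x => mul_smul a b x } :
      R →ₗ[R] Module.End R M) key).symm)

/-- A module is invertible if it is locally generated by one element with locally trivial
annihilator. -/
theorem invertible_of_local_generators (h : ∀ p : PrimeSpectrum R, ∃ g : R, g ∉ p.asIdeal ∧ ∃ f : M,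
      (∀ x : M, ∃ n : ℕ, g ^ n • x ∈ Submodule.span R {f}) ∧ ∀ a : R, a • f = 0 → ∃ n : ℕ,
        g ^ n * a = 0) :
    Module.Invertible R M := by
  choose g hg f hgen hann using h
  have hspan : Ideal.span (Set.range g) = ⊤ := by
    by_contra hne
    obtain ⟨m, hm, hle⟩ := Ideal.exists_le_maximal _ hne
    exact hg ⟨m, hm.isPrime⟩ (hle (Ideal.subset_span ⟨_, rfl⟩))
  obtain ⟨s, hs⟩ : ∃ s : Finset (PrimeSpectrum R), (1 : R) ∈ Ideal.span (g '' s) := by
    obtain ⟨c, hc⟩ := Finsupp.mem_ideal_span_range_iff_exists_finsupp.mp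
      ((Ideal.eq_top_iff_one _).mp hspan)
    exact ⟨c.support, hc ▸ Ideal.sum_mem _ fun i hi =>
      Ideal.mul_mem_left _ _ (Ideal.subset_span ⟨i, hi, rfl⟩)⟩
  have : Module.Finite R M :=
    ⟨Submodule.fg_def.mpr ⟨f '' s, s.finite_toSet.image f, eq_top_iff.mpr fun x _ => by
    apply Submodule.mem_of_span_eq_top_of_smul_pow_mem _ (g '' s) ((Ideal.eq_top_iff_one _).mpr hs)
    rintro ⟨_, p, hp, rfl⟩
    obtain ⟨n, hn⟩ := hgen p x
    exact ⟨n, Submodule.span_mono (by simpa using Set.mem_image_of_mem f hp) hn⟩⟩⟩
  refine invertible_of_locally_free fun p => ⟨g p, hg p, ⟨(LinearEquiv.ofBijective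
    (LinearMap.toSpanSingleton (Localization (Submonoid.powers (g p)))
      (LocalizedModule (Submonoid.powers (g p)) M) (LocalizedModule.mk (f p) 1)) ⟨?_, ?_⟩).symm⟩⟩
  · rw [injective_iff_map_eq_zero]
    intro z hz
    obtain ⟨a, t, rfl⟩ : ∃ a t, z = IsLocalization.mk' (Localization _) a t :=
      ⟨_, _, (IsLocalization.mk'_surjective (Submonoid.powers (g p)) z).choose_spec.symm⟩
    rw [LinearMap.toSpanSingleton_apply, ← Localization.mk_eq_mk', LocalizedModule.mk_smul_mk] at hz
    obtain ⟨⟨_, n, rfl⟩, hn⟩ := LocalizedModule.mk_eq.mp (hz.trans (LocalizedModule.zero_mk 1).symm)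
    simp only [Submonoid.smul_def, smul_zero, one_smul, smul_smul] at hn
    obtain ⟨l, hl⟩ := hann p _ hn
    rw [IsLocalization.mk'_eq_zero_iff]
    exact ⟨⟨g p ^ (l + n), _, rfl⟩, show g p ^ (l + n) * a = 0 by rw [pow_add, mul_assoc]; exact hl⟩
  · intro y
    induction y using LocalizedModule.induction_on with
    | _ x t =>
      obtain ⟨n, hn⟩ := hgen p x
      obtain ⟨a, ha⟩ := Submodule.mem_span_singleton.mp hn
      refine ⟨IsLocalization.mk' _ a (t * ⟨g p ^ n, n, rfl⟩), ?_⟩
      rw [LinearMap.toSpanSingleton_apply, ← Localization.mk_eq_mk', LocalizedModule.mk_smul_mk,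
        LocalizedModule.mk_eq]
      exact ⟨1, by simp [Submonoid.smul_def, ha, smul_smul, mul_comm]⟩

/-- The generators of an invertible module near a prime. -/
theorem exists_local_generator (R : Type u) [CommRing R] (M : Type u) [AddCommGroup M] [Module R M]
    [Module.Invertible R M] (p : PrimeSpectrum R) : ∃ g : R, g ∉ p.asIdeal ∧ ∃ f : M,
      (∀ x : M, ∃ n : ℕ, g ^ n • x ∈ Submodule.span R {f}) ∧ ∀ a : R, a • f = 0 → ∃ n : ℕ,
        g ^ n * a = 0 := by
  obtain ⟨S, hS⟩ := ((Module.Invertible.linearEquiv R M).symm 1).exists_finset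
  replace hS : 1 = ∑ i ∈ S, i.1 i.2 := by
    simpa [LinearEquiv.symm_apply_eq, Module.Invertible.linearEquiv] using hS
  obtain ⟨⟨φ, m⟩, -, hm⟩ : ∃ i ∈ S, i.1 i.2 ∉ p.asIdeal := by
    by_contra! hall
    exact p.isPrime.ne_top ((Ideal.eq_top_iff_one _).mpr (hS ▸ Ideal.sum_mem _ hall))
  refine ⟨φ m, hm, m, fun x => ⟨1, ?_⟩, fun a ha => ⟨1, ?_⟩⟩
  · rw [pow_one, Submodule.mem_span_singleton]
    refine ⟨φ x, ?_⟩
    simpa [smul_tmul] using congr(TensorProduct.lid R M (φ.rTensor M $(Module.Invertible.tmul_comm
        (m₁ := x) (m₂ := m))))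
  · rw [pow_one, mul_comm, ← smul_eq_mul, ← map_smul, ha, map_zero]

end Fermat.Agent.Jac

end
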