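import Fermat.Agent.Jac.Field.General

/-!
# Line bundles over algebraically closed fields: degrees and sections

Over a field: degrees of twists, homomorphism bundles and sub-bundles, bundles of degree zero
(`exists_subPoints_of_deg`), and `exists_chart`: every bundle of degree zero lies in some chart.
-/

set_option autoImplicit false

universe u

noncomputable section

open TensorProduct

namespace Fermat.Agent.Jac

variable {k : Type u} [Field k] {D : CurveData k}
variable {K : Type u} [Field K] [IsAlgClosed K] [Algebra k K]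

namespace LB

omit [IsAlgClosed K] in
theorem chi_congr {L L' : LB D K} (e : L.Isomorphic L') : L.chi = L'.chi := (chi_congr' e.some).symm

omit [IsAlgClosed K] in
/-- Isomorphic bundles have the same degree. -/
theorem deg_congr {L L' : LB D K} (e : L.Isomorphic L') : L.deg = L'.deg := by
  rw [deg, deg, chi_congr e]

omit [IsAlgClosed K] in
/-- The trivial bundle has degree zero. -/
theorem deg_unit : (LB.unit (D := D) K).deg = 0 := sub_self _

omit [IsAlgClosed K] in
theorem deg_twist (L : LB D K) (n : ℕ) : (L.twist n).deg = L.deg + n * D.dInf := by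
  rw [deg, deg, chi_twist]
  ring

omit [IsAlgClosed K] in
/-- The degree of a homomorphism bundle is the difference of the degrees. -/
theorem deg_hom (L L' : LB D K) : (L.hom L').deg = L'.deg - L.deg := by
  rw [deg, deg, deg, chi_hom D.dInf_pos]
  ring

omit [IsAlgClosed K] in
/-- A sub-bundle loses the length of the quotient in degree. -/
theorem deg_subBundle (N : LB D K) {i : Fin 2} {S : Submodule (D.A K i) N.M}
    (h : N.IsSubLattice i S) :
    (N.subBundle i S h).deg = N.deg - Module.finrank K ((N.L i) ⧸ S.comap (N.L i).subtype) := by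
  rw [deg, deg, chi_subBundle]
  ring

omit [IsAlgClosed K] in
/-- Twisting down at a point lowers the degree by one. -/
theorem deg_subPoint (L : LB D K) (P : (i : Fin 2) × (D.A K i →ₐ[K] K)) :
    (L.subPoint P).deg = L.deg - 1 := by
  rw [deg, deg, chi_subPoint]
  ring

omit [IsAlgClosed K] in
theorem deg_subPoints (L : LB D K) (l : List ((i : Fin 2) × (D.A K i →ₐ[K] K))) :
    (L.subPoints l).deg = L.deg - l.length := by
  induction l generalizing L with
  | nil => simp [subPoints]
  | cons P l ih =>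
    show ((L.subPoint P).subPoints l).deg = _
    rw [ih, deg_subPoint, List.length_cons]
    push_cast
    ring

omit [IsAlgClosed K] in
/-- Over a field every bundle is trivial along the rational point. -/
theorem evTrivial (L : LB D K) : L.EvTrivial := by
  have h1 := L.finrank_pointLattice 0 (D.evR K)
  set S := (L.pointLattice 0 (D.evR K)).comap (L.L 0).subtype with hS
  have : FiniteDimensional K ((L.L 0) ⧸ S) := Module.finite_of_finrank_eq_succ h1
  obtain ⟨e⟩ : Nonempty (((L.L 0) ⧸ S) ≃ₗ[K] K) :=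
    ⟨LinearEquiv.ofFinrankEq _ _ (by rw [h1, Module.finrank_self])⟩
  refine ⟨e.toLinearMap.toAddMonoidHom.comp S.mkQ.toAddMonoidHom, fun a m => ?_, ?_⟩
  · show e (Submodule.Quotient.mk (a • m)) = D.evR K a * e (Submodule.Quotient.mk m)
    rw [← smul_eq_mul, ← map_smul, ← Submodule.Quotient.mk_smul]
    exact congrArg e ((Submodule.Quotient.eq S).mpr (L.smul_sub_mem_pointLattice (D.evR K) a m.2))
  · exact e.surjective.comp S.mkQ_surjective

omit [IsAlgClosed K] in
theorem isomorphic_of_hom (L L' : LB D K) {s : (L.hom L').M} (hs : s ∈ (L.hom L').H0) (h0 : s ≠ 0)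
    (hdeg : L.deg = L'.deg) : ∃ e : L.Iso L', ∀ m, e.e m = toMap s m :=
  isomorphic_of_chi_eq (mem_H0_hom.mp hs) (injective_of_ne_zero h0) (sub_left_injective hdeg).symm

/-- With a nonzero map to `L'`, a bundle is isomorphic to `L'` twisted down at some points. -/
theorem exists_subPoints (L L' : LB D K) {s : (L.hom L').M} (hs : s ∈ (L.hom L').H0) (h0 : s ≠ 0) :
    ∃ l : List ((i : Fin 2) × (D.A K i →ₐ[K] K)), L.Isomorphic (L'.subPoints l) := by
  have hle := chi_le (hf := mem_H0_hom.mp hs) (injective_of_ne_zero h0)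
  obtain ⟨d, hd⟩ : ∃ d : ℕ, L'.chi = L.chi + d := ⟨(L'.chi - L.chi).toNat, by omega⟩
  clear hle
  induction d generalizing L' with
  | zero =>
    obtain ⟨e, -⟩ := isomorphic_of_chi_eq (mem_H0_hom.mp hs) (injective_of_ne_zero h0)
      (by simpa using hd)
    exact ⟨[], ⟨e⟩⟩
  | succ d ih =>
    have hf := mem_H0_hom.mp hs
    have hinj := injective_of_ne_zero h0
    obtain ⟨i, hi⟩ : ∃ i, LinearMap.range (onChart (toMap s) hf i) ≠ ⊤ := by
      by_contra! hall
      have hz : ∀ i, defect (toMap s) hf i = 0 := fun i => by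
        have := Submodule.Quotient.subsingleton_iff.mpr (hall i)
        exact Module.finrank_zero_of_subsingleton
      have h := chi_eq_add (hf := hf) hinj
      rw [hz, hz] at h
      omega
    obtain ⟨σ, hσ⟩ := L'.exists_le_point hi
    obtain ⟨s', hs', e⟩ :=
      exists_factor hs ⟨i, σ⟩ fun x hx => hσ (onChart (toMap s) hf i ⟨x, hx⟩) ⟨_, rfl⟩
    have h0' : s' ≠ 0 := fun h => h0 (toMap.map_eq_zero_iff.mp (LinearMap.ext fun x => by
      rw [← e x, h]; rfl))
    obtain ⟨l, hl⟩ := ih (L'.subPoint ⟨i, σ⟩) hs' h0' (by rw [chi_subPoint]; omega)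
    exact ⟨⟨i, σ⟩ :: l, hl⟩

/-- A bundle of degree zero is isomorphic to any bundle of degree the genus `g` twisted down at
some `g` points. -/
theorem exists_subPoints_of_deg (L N : LB D K) (hL : L.deg = 0) (hN : N.deg = D.genus) :
    ∃ l : List ((i : Fin 2) × (D.A K i →ₐ[K] K)), l.length = D.genus ∧
      L.Isomorphic (N.subPoints l) := by
  have hchi : 0 < (L.hom N).chi := by
    rw [chi_hom D.dInf_pos]
    rw [deg] at hL hN
    rw [chi_unit] at hL hN ⊢
    omega
  obtain ⟨s, hs, h0⟩ := exists_section_of_chi_pos hchi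
  obtain ⟨l, hl⟩ := exists_subPoints L N hs h0
  refine ⟨l, ?_, hl⟩
  have := deg_congr hl
  rw [deg_subPoints] at this
  omega

end LB

/-- The bundles over `k` by which the charts are indexed. -/
def chartBundle (n : ℕ) (l : List ((i : Fin 2) × (D.A k i →ₐ[k] k))) : LB D k :=
  ((LB.unit (D := D) k).twist n).subPoints l

/-- Every bundle of degree zero lies in some chart. -/
theorem exists_chart [IsAlgClosed k] (ξ : LB D K) (hξ : ξ.deg = 0) :
    ∃ (n : ℕ) (l : List ((i : Fin 2) × (D.A k i →ₐ[k] k))) (N : LB D K),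
      Nonempty (LB.Mor (Algebra.ofId k K) (chartBundle n l) N) ∧ N.deg = D.genus ∧
        Subsingleton (ξ.hom N).H1 ∧ ∀ s ∈ (ξ.hom N).H0, s ≠ 0 → ∀ m ∈ N.L 1, ∃ a ∈ ξ.L 1,
          ∃ b ∈ N.L 1,
          m = LB.toMap s a + D.tR K 1 • b := by
  -- Twist the trivial bundle into general position and remove points down to degree `genus`.
  obtain ⟨n₀, hn₀⟩ := LB.inGeneralPosition_twist ξ (LB.unit K)
  set n := n₀ + D.genus with hn
  have hdn : (D.genus : ℤ) ≤ n * D.dInf := by
    have h := Nat.le_mul_of_pos_right n D.dInf_pos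
    exact_mod_cast (Nat.le_add_left D.genus n₀).trans h
  have hO := LB.deg_twist (LB.unit (D := D) K) n
  rw [LB.deg_unit, zero_add] at hO
  obtain ⟨m, hm⟩ : ∃ m : ℕ, (n : ℤ) * D.dInf = D.genus + m :=
    ⟨(n * D.dInf - D.genus : ℤ).toNat, by omega⟩
  have hchi : ∀ N : LB D K, (ξ.hom N).chi = N.deg + 1 - D.genus := fun N => by
    have := LB.deg_hom ξ N
    rw [hξ, LB.deg, LB.chi_unit] at this
    linarith
  obtain ⟨l, hl, hH1, hgen⟩ := LB.InGeneralPosition.exists_points m (hn₀ n (by omega))
    (by rw [hchi, hO]; omega)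
  set N := ((LB.unit (D := D) K).twist n).subPoints
    (l.map (LB.mapPoint (Algebra.ofId k K))) with hNdef
  have hN : N.deg = D.genus := by
    rw [LB.deg_subPoints, List.length_map, hl, hO]
    omega
  refine ⟨n, l, N, ⟨((LB.Mor.unit (D := D) (Algebra.ofId k K)).twist n).subPoints l⟩, hN, hH1, ?_⟩
  -- If the image of a section and `t` do not generate at infinity, they lie in a point lattice.
  intro s hs hs0 y hy
  have hf := LB.mem_H0_hom.mp hs
  set Q : Submodule (D.A K 1) (N.L 1) := LinearMap.range (LB.onChart (LB.toMap s) hf 1) ⊔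
    LinearMap.range (LinearMap.lsmul (D.A K 1) (N.L 1) (D.tR K 1)) with hQ
  suffices htop : Q = ⊤ by
    have hyQ : (⟨y, hy⟩ : N.L 1) ∈ Q := htop ▸ Submodule.mem_top
    obtain ⟨_, ⟨a, rfl⟩, _, ⟨b, rfl⟩, e⟩ := Submodule.mem_sup.mp hyQ
    exact ⟨a, a.2, b, b.2, (congrArg Subtype.val e).symm⟩
  by_contra hne
  obtain ⟨σ, hσ⟩ := N.exists_le_point hne
  have hσt : σ (D.tR K 1) = 0 := by
    obtain ⟨z, hz, hzP⟩ := N.exists_not_mem_pointLattice σ
    exact (N.smul_mem_pointLattice_iff hz hzP).mp
      (hσ _ (Submodule.mem_sup_right ⟨⟨z, hz⟩, rfl⟩))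
  obtain ⟨t, ht, x, hx, htx⟩ := hgen σ hσt
  have := (ξ.hom N).finite_H0_field
  -- The sections form a line, so the one separating that point would lie there too.
  have h0 : Module.finrank K (ξ.hom N).H0 = 1 := by
    have h := LB.h0_eq_of_subsingleton (ξ.hom N)
    rw [hchi, hN, LB.h0] at h
    omega
  obtain ⟨c, hc⟩ := exists_smul_eq_of_finrank_eq_one h0
    (x := (⟨s, hs⟩ : (ξ.hom N).H0)) (fun e => hs0 (congrArg Subtype.val e)) ⟨t, ht⟩
  refine htx ?_
  rw [show t = c • s from (congrArg Subtype.val hc).symm]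
  show c • LB.toMap s x ∈ _
  exact (N.pointLattice 1 σ).smul_of_tower_mem c
    (hσ _ (Submodule.mem_sup_left ⟨⟨x, hx⟩, rfl⟩))

end Fermat.Agent.Jac

end
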