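import Fermat.Agent.Jac.Chart.Smooth
import Fermat.Agent.Jac.Chart.Locus
import Fermat.Agent.Jac.Chart.Cover

/-!
# Affine smooth charts of the Jacobian
-/

set_option autoImplicit false

universe u

noncomputable section

open TensorProduct

namespace Fermat.Agent.Jac

variable {k : Type u} [Field k]

/-- An affine smooth chart: a family of bundles of degree zero, injective on points and open. -/
structure ChartRing (D : CurveData k) : Type (u + 1) where
  /-- the coordinate ring -/
  Rc : Type u
  [commRing : CommRing Rc]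
  [algebra : Algebra k Rc]
  smooth : Algebra.Smooth k Rc
  /-- the universal bundle -/
  univ : LB D Rc
  evTrivial : univ.EvTrivial
  fibreDegZero : univ.FibreDegZero
  mono : ∀ (R : Type u) [CommRing R] [Algebra k R] (ψ ψ' : Rc →ₐ[k] R) (L L' : LB D R),
    LB.Mor ψ univ L → LB.Mor ψ' univ L' → L.Isomorphic L' → ψ = ψ'
  exists_locus : ∀ (R : Type u) [CommRing R] [Algebra k R] (ξ : LB D R), ξ.EvTrivial →
    ξ.FibreDegZero →
    ∃ W : TopologicalSpace.Opens (PrimeSpectrum R),
      (∀ (R' : Type u) [CommRing R'] [Algebra k R'] (φ : R →ₐ[k] R') (ψ : Rc →ₐ[k] R')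
        (ξ' L : LB D R'), LB.Mor φ ξ ξ' → LB.Mor ψ univ L → L.Isomorphic ξ' →
          Set.range (PrimeSpectrum.comap φ.toRingHom) ⊆ W) ∧
      ∀ p ∈ W, ∃ r : R, r ∉ p.asIdeal ∧ ∃ (ψ : Rc →ₐ[k] Localization.Away r)
        (ξ' L : LB D (Localization.Away r)), Nonempty (LB.Mor (IsScalarTower.toAlgHom k R _) ξ ξ') ∧
          Nonempty (LB.Mor ψ univ L) ∧ L.Isomorphic ξ'

attribute [instance] ChartRing.commRing ChartRing.algebra

namespace Chart

/-- The data of one chart: a chart bundle, sections on it, and an affine piece of their frame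
scheme. -/
structure Index (D : CurveData k) : Type u where
  /-- the twist -/
  n : ℕ
  /-- the points removed -/
  l : List ((i : Fin 2) × (D.A k i →ₐ[k] k))
  deg_eq : (chartBundle n l).deg = D.genus
  /-- the sections framing the quotient -/
  β : Fin D.genus → (chartBundle n l).L 0
  /-- the function cutting out the piece -/
  f : Ring (chartBundle n l) β
  h1 : Subsingleton ((univBundle (chartBundle n l) β f).hom
    (bc (chartBundle n l) (Away (chartBundle n l) β f))).H1
  ev : (univBundle (chartBundle n l) β f).EvTrivial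

/-- The chart of an index. -/
def chartOf {D : CurveData k} (i : Index D) : ChartRing D where
  Rc := Away (chartBundle i.n i.l) i.β i.f
  smooth := smooth_away (chartBundle i.n i.l) i.β i.f
  univ := univBundle (chartBundle i.n i.l) i.β i.f
  evTrivial := i.ev
  fibreDegZero _ _ _ _ φ _ g :=
    (LB.deg_congr ⟨g.targetIso (pointMor φ)⟩).trans
      (frameBundle_deg i.deg_eq (isFrame_pointFrame φ))
  mono _ _ _ ψ ψ' _ _ g g' e :=
    have := i.h1
    point_mono i.deg_eq ((LB.Isomorphic.trans ⟨(pointMor ψ).targetIso g⟩ e).trans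
      ⟨g'.targetIso (pointMor ψ')⟩)
  exists_locus R _ _ ξ _ hξ :=
    have := i.h1
    exists_locus i.deg_eq R ξ hξ

end Chart

/-- The charts cover all bundles of degree zero. -/
theorem exists_charts [IsAlgClosed k] (D : CurveData k) :
    ∃ (ι : Type u) (c : ι → ChartRing D), ∀ (K : Type u) [Field K] [IsAlgClosed K] [Algebra k K]
      (ξ : LB D K), ξ.deg = 0 →
        ∃ (i : ι) (ψ : (c i).Rc →ₐ[k] K) (L : LB D K),
          Nonempty (LB.Mor ψ (c i).univ L) ∧ L.Isomorphic ξ := by
  refine ⟨Chart.Index D, Chart.chartOf, fun K _ _ _ ξ hξ => ?_⟩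
  obtain ⟨n, l, hdeg, β, f, h1, hev, ψ, hψ⟩ := Chart.exists_piece ξ hξ
  exact ⟨⟨n, l, hdeg, β, f, h1, hev⟩, ψ, Chart.pointBundle ψ, ⟨Chart.pointMor ψ⟩, hψ⟩

end Fermat.Agent.Jac

end
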