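import Fermat.Agent.Jac.Ops
import Fermat.Agent.Jac.Cohom.Base

/-!
# Cohomology of line bundles in families

The main theorems are `LB.exists_subsingleton_H1_twist`, `LB.Mor.subsingleton_H1_iff` and
`LB.exists_locallyConstant_chi`.
-/

set_option autoImplicit false

universe u

noncomputable section

open TensorProduct

namespace Fermat.Agent.Jac

variable {k : Type u} [Field k] {D : CurveData k}
variable {R R' : Type u} [CommRing R] [Algebra k R] [CommRing R'] [Algebra k R']

namespace LB

/-! ### Twists -/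

theorem twist_L_zero (L : LB D R) (n : ℕ) : (L.twist n).L 0 = L.L 0 := by
  ext m
  exact (mem_twist (L := L) (n := n) (i := 0) (m := m)).trans (by simp; rfl)

theorem mem_twist_one (L : LB D R) (n : ℕ) (m : L.M) :
    m ∈ (L.twist n).L 1 ↔ D.uR R 1 ^ n • m ∈ L.L 1 := by
  rw [L.uR_pow_smul]
  simpa using mem_twist (L := L) (n := n) (i := 1) (m := m)

/-- Large twists of a bundle have no first cohomology. -/
theorem exists_subsingleton_H1_twist (L : LB D R) :
    ∃ n₀, ∀ n ≥ n₀, Subsingleton (L.twist n).H1 := by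
  obtain ⟨s, N, hN, hs⟩ := L.exists_bound
  refine ⟨N, fun n hn => Submodule.Quotient.subsingleton_iff.2 (eq_top_iff.2 fun m _ => ?_)⟩
  obtain ⟨x, hx, y, hy, hxy⟩ :=
    Submodule.mem_sup.1 (hs (trivial : (m : L.M) ∈ (⊤ : Submodule R L.M)))
  have hy' : D.uR R 1 ^ n • y ∈ L.L 1 := by
    clear hxy
    induction hy using Submodule.span_induction with
    | mem z hz =>
      obtain ⟨⟨l, g, hg⟩, rfl⟩ := hz
      rw [smul_smul, ← pow_add]
      exact hN (n + l) (hn.trans (Nat.le_add_right n l)) g hg
    | zero => simp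
    | add z w _ _ hz hw => rw [smul_add]; exact add_mem hz hw
    | smul r z _ hz => rw [smul_comm]; exact Submodule.smul_mem ((L.L 1).restrictScalars R) r hz
  have h₀ : x ∈ (L.twist n).L 0 := (L.twist_L_zero n).ge hx
  have h₁ : y ∈ (L.twist n).L 1 := (L.mem_twist_one n y).2 hy'
  exact Submodule.mem_sup.2 ⟨x, h₀, y, h₁, hxy⟩

variable {φ : R →ₐ[k] R'} {L : LB D R} {L' : LB D R'}

/-! ### Base change of sections -/

/-- Base change sends global sections to global sections. -/
theorem Mor.map_H0 (g : Mor φ L L') {m : L.M} (hm : m ∈ L.H0) : g.f m ∈ L'.H0 :=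
  ⟨g.map_mem hm.1, g.map_mem hm.2⟩

/-- Without first cohomology, global sections of a base change are spanned by those of the
bundle. -/
theorem Mor.span_H0 (g : Mor φ L L') [Subsingleton L.H1] :
    Submodule.span R' (g.f '' (L.H0 : Set L.M)) = L'.H0 := by
  let : Algebra R R' := φ.toRingHom.toAlgebra
  have : IsScalarTower k R R' := IsScalarTower.of_algebraMap_eq fun a => (φ.commutes a).symm
  let : Module R L'.M := Module.compHom L'.M φ.toRingHom
  have : IsScalarTower R R' L'.M := IsScalarTower.of_algebraMap_smul fun _ _ => rfl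
  let g' : Mor (IsScalarTower.toAlgHom k R R') L L' := g
  refine le_antisymm (Submodule.span_le.2 ?_) fun x hx => ?_
  · rintro _ ⟨m, hm, rfl⟩
    exact g.map_H0 hm
  obtain ⟨x, rfl⟩ : ∃ y : L'.H0, (y : L'.M) = x := ⟨⟨x, hx⟩, rfl⟩
  induction x using g'.isBaseChange_H0.inductionOn with
  | zero => simp
  | tmul m => exact Submodule.subset_span ⟨m, m.2, rfl⟩
  | smul r y h => exact Submodule.smul_mem _ r (h y.2)
  | add y z hy hz => exact add_mem (hy y.2) (hz z.2)

/-- The open set where the first cohomology of the fibre vanishes. -/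
def h1Locus (L : LB D R) : TopologicalSpace.Opens (PrimeSpectrum R) :=
  ⟨(Module.support R L.H1)ᶜ, by
    have := L.finite_H1
    exact Module.isClosed_support.isOpen_compl⟩

/-- The open set without first cohomology is the complement of the support of `H¹`. -/
theorem coe_h1Locus (L : LB D R) :
    (L.h1Locus : Set (PrimeSpectrum R)) = (Module.support R L.H1)ᶜ := rfl

/-- A base change has no first cohomology exactly when it lands where the fibres have none. -/
theorem Mor.subsingleton_H1_iff (g : Mor φ L L') :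
    Subsingleton L'.H1 ↔ Set.range (PrimeSpectrum.comap φ.toRingHom) ⊆ L.h1Locus := by
  let : Algebra R R' := φ.toRingHom.toAlgebra
  have : IsScalarTower k R R' := IsScalarTower.of_algebraMap_eq fun a => (φ.commutes a).symm
  let : Module R L'.M := Module.compHom L'.M φ.toRingHom
  have : IsScalarTower R R' L'.M := IsScalarTower.of_algebraMap_smul fun _ _ => rfl
  let g' : Mor (IsScalarTower.toAlgHom k R R') L L' := g
  have := L.finite_H1
  exact subsingleton_iff_of_isBaseChange g'.isBaseChange_H1

/-- Vanishing of first cohomology passes to base changes. -/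
theorem Mor.subsingleton_H1 (g : Mor φ L L') [Subsingleton L.H1] : Subsingleton L'.H1 :=
  g.subsingleton_H1_iff.2 fun p _ => by
    rw [coe_h1Locus, Set.mem_compl_iff, Module.support_eq_empty]
    exact Set.notMem_empty p

/-! ### Euler characteristics over a field -/

section Field

variable {K : Type u} [Field K] [Algebra k K]

/-- The dimension of a fibre of the global sections is the rank at the point. -/
theorem Mor.h0_eq_rankAtStalk {φ : R →ₐ[k] K} {L : LB D R} {L' : LB D K} (g : Mor φ L L')
    [Subsingleton L.H1] : L'.h0 = Module.rankAtStalk L.H0 (pointOf φ) := by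
  let : Algebra R K := φ.toRingHom.toAlgebra
  have : IsScalarTower k R K := IsScalarTower.of_algebraMap_eq fun a => (φ.commutes a).symm
  let : Module R L'.M := Module.compHom L'.M φ.toRingHom
  have : IsScalarTower R K L'.M := IsScalarTower.of_algebraMap_smul fun _ _ => rfl
  let g' : Mor (IsScalarTower.toAlgHom k R K) L L' := g
  have := L.finite_H0'
  have := L.projective_H0'
  let p : PrimeSpectrum K := ⟨⊥, Ideal.isPrime_bot⟩
  have hp : p.comap (algebraMap R K) = pointOf φ :=
    PrimeSpectrum.ext (RingHom.ker_eq_comap_bot (algebraMap R K)).symm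
  rw [← hp, ← Module.rankAtStalk_isBaseChange g'.isBaseChange_H0 p,
    Module.rankAtStalk_eq_finrank_of_free]
  rfl

/-- The change of the Euler characteristic when the second lattice grows. -/
theorem chi_eq_add_of_le (L L' : LB D K) (e : L.M ≃ₗ[K] L'.M)
    (h₀ : ((L.L 0).restrictScalars K).map (e : L.M →ₗ[K] L'.M) = (L'.L 0).restrictScalars K)
    (h₁ : ((L.L 1).restrictScalars K).map (e : L.M →ₗ[K] L'.M) ≤ (L'.L 1).restrictScalars K) :
    L'.chi = L.chi + Module.finrank K (((L'.L 1).restrictScalars K) ⧸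
      (((L.L 1).restrictScalars K).map (e : L.M →ₗ[K] L'.M)).comap
        ((L'.L 1).restrictScalars K).subtype) := by
  set U := (L'.L 0).restrictScalars K
  set V := ((L.L 1).restrictScalars K).map (e : L.M →ₗ[K] L'.M)
  have hinf : L.H0.map (e : L.M →ₗ[K] L'.M) = U ⊓ V := by
    rw [H0, Submodule.map_inf _ e.injective, h₀]
  have hsup : L.boundary.map (e : L.M →ₗ[K] L'.M) = U ⊔ V := by rw [boundary, Submodule.map_sup, h₀]
  let eH1 : L.H1 ≃ₗ[K] L'.M ⧸ (U ⊔ V) := Submodule.Quotient.equiv _ _ e hsup
  have : Module.Finite K ↥(U ⊓ (L'.L 1).restrictScalars K) := L'.finite_H0_field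
  have hfin := L.finite_H1
  have : Module.Finite K (L'.M ⧸ (U ⊔ V)) := Module.Finite.equiv eH1
  have key := finrank_inf_sub_finrank_quotient_sup U V ((L'.L 1).restrictScalars K) h₁
  rw [← hinf, ← eH1.finrank_eq, LinearEquiv.finrank_map_eq e] at key
  exact key

/-- The growth of the Euler characteristic under one twist. -/
def twistStep (L : LB D K) : ℕ :=
  Module.finrank K ((((L.twist 1).L 1).restrictScalars K) ⧸
    ((L.L 1).restrictScalars K).comap (((L.twist 1).L 1).restrictScalars K).subtype)

theorem chi_twist_zero (L : LB D K) : (L.twist 0).chi = L.chi := by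
  have h : ∀ i, (L.twist 0).L i = L.L i := fun i => by
    ext m
    exact (mem_twist (L := L) (n := 0) (i := i) (m := m)).trans (by simp; rfl)
  have hinf : (L.twist 0).H0 = L.H0 := by simp only [H0, h]; rfl
  have hsup : (L.twist 0).boundary = L.boundary := by simp only [boundary, h]; rfl
  unfold chi h0 h1
  rw [hinf]
  congr 2
  exact (Submodule.quotEquivOfEq _ _ hsup).finrank_eq

theorem chi_twist_succ (L : LB D K) (n : ℕ) :
    (L.twist (n + 1)).chi = (L.twist n).chi + L.twistStep := by
  have hle : ((L.twist n).L 1).restrictScalars K ≤ ((L.twist (n + 1)).L 1).restrictScalars K := by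
    intro m hm
    have hm' : D.uR K 1 ^ n • m ∈ L.L 1 := (L.mem_twist_one n m).1 hm
    refine (L.mem_twist_one (n + 1) m).2 ?_
    have h' := L.uR_pow_smul_mem (n := 1) hm'
    refine (congrArg (· ∈ L.L 1) ?_).mp h'
    exact (smul_smul (D.uR K 1 ^ 1) (D.uR K 1 ^ n) (m : L.M)).trans
      (by rw [← pow_add, add_comm]; rfl)
  -- The Euler characteristics differ by the dimension of the quotient at infinity.
  have h := chi_eq_add_of_le (L.twist n) (L.twist (n + 1)) (LinearEquiv.refl K L.M)
    ((Submodule.map_id _).trans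
      (congrArg (Submodule.restrictScalars K)
        ((L.twist_L_zero n).trans (L.twist_L_zero (n + 1)).symm)))
    ((Submodule.map_id _).le.trans hle)
  rw [h]
  congr 1
  norm_cast
  -- Multiplication by `u ^ n` identifies it with the quotient for `n = 0`.
  let u : L.M ≃ₗ[K] L.M :=
    { toFun := fun m => D.uR K 1 ^ n • m
      invFun := fun m => D.uR K 0 ^ n • m
      map_add' := smul_add _
      map_smul' := fun r m => smul_comm _ r m
      left_inv := fun m => by
        simp only [smul_smul, D.uR_pow_mul K (show (0 : Fin 2) ≠ 1 by decide) n, one_smul]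
      right_inv := fun m => by
        simp only [smul_smul, D.uR_pow_mul K (show (1 : Fin 2) ≠ 0 by decide) n, one_smul] }
  have hu : (((L.twist (n + 1)).L 1).restrictScalars K).map (u : L.M →ₗ[K] L.M) =
      ((L.twist 1).L 1).restrictScalars K := by
    ext m
    rw [Submodule.mem_map_equiv]
    change u.symm m ∈ (L.twist (n + 1)).L 1 ↔ m ∈ (L.twist 1).L 1
    rw [mem_twist_one, mem_twist_one, show u.symm m = D.uR K 0 ^ n • m from rfl, smul_smul,
      pow_succ', pow_one, mul_assoc, D.uR_pow_mul K (by decide) n, mul_one]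
  let u' : ↥(((L.twist (n + 1)).L 1).restrictScalars K) ≃ₗ[K]
      ↥(((L.twist 1).L 1).restrictScalars K) :=
    u.ofSubmodules _ _ hu
  refine (Submodule.Quotient.equiv _ _ u' ?_).finrank_eq
  ext m
  refine (Submodule.mem_map_equiv (e := u') _).trans ?_
  let x : L.M := m.1
  have hiff : u.symm x ∈ (L.twist n).L 1 ↔ x ∈ L.L 1 := by
    refine (L.mem_twist_one n _).trans ?_
    change D.uR K 1 ^ n • D.uR K 0 ^ n • x ∈ L.L 1 ↔ _
    rw [smul_smul, D.uR_pow_mul K (show (1 : Fin 2) ≠ 0 by decide) n, one_smul]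
  refine Iff.trans ⟨fun h => ?_, fun h => ?_⟩ hiff
  · obtain ⟨y, hy, e⟩ := h
    exact (congrArg (· ∈ (L.twist n).L 1) e).mp hy
  · exact ⟨_, h, rfl⟩

theorem chi_twist_eq_step (L : LB D K) (n : ℕ) : (L.twist n).chi = L.chi + n * L.twistStep := by
  induction n with
  | zero => simp [chi_twist_zero]
  | succ n ih => rw [chi_twist_succ, ih]; push_cast; ring

end Field

/-! ### Local constancy and the trivial bundle -/

/-- The Euler characteristic of the fibres of a bundle is locally constant on the base. -/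
theorem exists_locallyConstant_chi (L : LB D R) :
    ∃ f : PrimeSpectrum R → ℤ, IsLocallyConstant f ∧
      ∀ (K : Type u) [Field K] [Algebra k K] (φ : R →ₐ[k] K) (L' : LB D K),
        Mor φ L L' → L'.chi = f (pointOf φ) := by
  obtain ⟨n, hn⟩ := L.exists_subsingleton_H1_twist
  have := hn n le_rfl
  have := hn (n + 1) (Nat.le_succ n)
  have := (L.twist n).finite_H0'
  have := (L.twist (n + 1)).finite_H0'
  have := (L.twist n).projective_H0'
  have := (L.twist (n + 1)).projective_H0'
  have := Module.finitePresentation_of_projective R (L.twist n).H0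
  have := Module.finitePresentation_of_projective R (L.twist (n + 1)).H0
  refine ⟨fun p => (n + 1 : ℤ) * Module.rankAtStalk (L.twist n).H0 p - n *
    Module.rankAtStalk (L.twist (n + 1)).H0 p,
    ((Module.isLocallyConstant_rankAtStalk (R := R) (M := (L.twist n).H0)).comp₂
      (Module.isLocallyConstant_rankAtStalk (R := R) (M := (L.twist (n + 1)).H0))
      fun a b : ℕ => (n + 1 : ℤ) * a - n * b), fun K _ _ φ L' g => ?_⟩
  have := (g.twist n).subsingleton_H1
  have := (g.twist (n + 1)).subsingleton_H1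
  have e : ∀ m, Subsingleton (L'.twist m).H1 → (L'.twist m).chi = (L'.twist m).h0 := fun m _ => by
    rw [chi, h1, Module.finrank_zero_of_subsingleton, Nat.cast_zero, sub_zero]
  simp only [← (g.twist n).h0_eq_rankAtStalk, ← (g.twist (n + 1)).h0_eq_rankAtStalk]
  rw [← e n inferInstance, ← e (n + 1) inferInstance, chi_twist_eq_step, chi_twist_eq_step]
  push_cast
  ring

theorem algebraMap_mem_span_one {a₀ : D.A R 0} {a₁ : D.A R 1}
    (h : algebraMap (D.A R 0) (D.A01 R) a₀ = algebraMap (D.A R 1) (D.A01 R) a₁) :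
    algebraMap (D.A R 0) (D.A01 R) a₀ ∈ Submodule.span R {(1 : D.A01 R)} := by
  let η : k →ₗ[k] D.B 0 × D.B 1 := (Algebra.linearMap k (D.B 0)).prod (Algebra.linearMap k (D.B 1))
  let δ : D.B 0 × D.B 1 →ₗ[k] D.B01 :=
    (D.res 0).toLinearMap ∘ₗ LinearMap.fst k _ _ - (D.res 1).toLinearMap ∘ₗ LinearMap.snd k _ _
  have hex : Function.Exact η δ := by
    intro b
    constructor
    · intro hb
      have hb' : D.res 0 b.1 = D.res 1 b.2 := sub_eq_zero.1 hb
      obtain ⟨a, ha⟩ := D.const b.1 b.2 hb'
      refine ⟨a, Prod.ext ha.symm (D.res_injective 1 ?_)⟩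
      change D.res 1 (algebraMap k _ a) = _
      rw [← hb', ha, AlgHom.commutes, AlgHom.commutes]
    · rintro ⟨a, rfl⟩
      simp [δ, η]
  let y : R ⊗[k] (D.B 0 × D.B 1) := (TensorProduct.prodRight k k R _ _).symm (a₀, a₁)
  have hδ : ∀ z, δ.lTensor R z =
      algebraMap (D.A R 0) (D.A01 R) (TensorProduct.prodRight k k R _ _ z).1 -
      algebraMap (D.A R 1) (D.A01 R) (TensorProduct.prodRight k k R _ _ z).2 := by
    intro z
    induction z using TensorProduct.induction_on with
    | zero => simp
    | tmul r b => simp [δ]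
    | add z w hz hw => simp only [map_add, hz, hw, Prod.fst_add, Prod.snd_add]; abel
  have hy : δ.lTensor R y = 0 := by
    rw [hδ, LinearEquiv.apply_symm_apply, sub_eq_zero]
    exact h
  obtain ⟨z, hz⟩ := (Module.Flat.lTensor_exact R hex y).1 hy
  refine Submodule.mem_span_singleton.2 ⟨TensorProduct.rid k R z, ?_⟩
  have ha₀ : a₀ = TensorProduct.rid k R z ⊗ₜ[k] (1 : D.B 0) := by
    have := congrArg (fun w => (TensorProduct.prodRight k k R _ _ w).1) hz
    simp only [y, LinearEquiv.apply_symm_apply] at this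
    rw [← this]
    obtain ⟨r, rfl⟩ : ∃ r, r ⊗ₜ[k] (1 : k) = z :=
      ⟨TensorProduct.rid k R z, (TensorProduct.rid k R).symm_apply_apply z⟩
    simp [η]
  rw [ha₀]
  simp [Algebra.smul_def, Algebra.TensorProduct.algebraMap_apply]

theorem H0_unit : (LB.unit (D := D) R).H0 = Submodule.span R {(1 : D.A01 R)} := by
  refine le_antisymm (fun x hx => ?_) ((Submodule.span_singleton_le_iff_mem _ _).2
    ⟨⟨1, map_one (algebraMap (D.A R 0) (D.A01 R))⟩, ⟨1, map_one (algebraMap (D.A R 1) (D.A01 R))⟩⟩)
  obtain ⟨⟨a₀, h₀⟩, ⟨a₁, h₁⟩⟩ := hx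
  exact (congrArg (fun y : D.A01 R => y ∈ Submodule.span R {(1 : D.A01 R)}) h₀).mp
    (algebraMap_mem_span_one (h₀.trans h₁.symm))

theorem smul_one_injective : Function.Injective fun r : R => r • (1 : D.A01 R) := by
  have : Nontrivial D.B01 := (D.res_injective 0).nontrivial
  have h := Module.Flat.lTensor_preserves_injective_linearMap (M := R) (Algebra.linearMap k D.B01)
    (FaithfulSMul.algebraMap_injective k D.B01)
  intro r r' e
  have := @h (r ⊗ₜ 1) (r' ⊗ₜ 1)
    (by simpa [Algebra.smul_def, Algebra.TensorProduct.algebraMap_apply] using e)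
  simpa using congrArg (TensorProduct.rid k R) this

/-- The trivial bundle is its own base change. -/
def Mor.unit (φ : R →ₐ[k] R') : Mor φ (LB.unit (D := D) R) (LB.unit (D := D) R') where
  f := (D.mapA01 φ).toRingHom.toAddMonoidHom
  map_smul a m := map_mul (D.mapA01 φ) a m
  span_map i := by
    refine le_antisymm (Submodule.span_le.2 ?_) ?_
    · rintro _ ⟨_, ⟨b, rfl⟩, rfl⟩
      exact ⟨D.mapA φ i b, (CurveData.mapA01_res φ i b).symm⟩
    · rintro _ ⟨b, rfl⟩
      have h1 : (1 : D.A01 R') ∈ Submodule.span (D.A R' i)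
          ((D.mapA01 φ).toRingHom.toAddMonoidHom ''
            (LinearMap.range (Algebra.linearMap (D.A R i) (D.A01 R)) : Set (D.A01 R))) :=
        Submodule.subset_span ⟨1, ⟨1, map_one (algebraMap (D.A R i) (D.A01 R))⟩,
          map_one (D.mapA01 φ)⟩
      have h2 := Submodule.smul_mem _ b h1
      rw [← Algebra.algebraMap_eq_smul_one] at h2
      exact h2

theorem h1_unit (K : Type u) [Field K] [Algebra k K] : (LB.unit (D := D) K).h1 = D.genus := by
  let : Module k (LB.unit (D := D) K).M := inferInstanceAs (Module k (D.A01 K))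
  have : IsScalarTower k K (LB.unit (D := D) K).M := inferInstanceAs (IsScalarTower k K (D.A01 K))
  let g : Mor (IsScalarTower.toAlgHom k k K) (LB.unit (D := D) k) (LB.unit (D := D) K) := Mor.unit _
  rw [h1, CurveData.genus, ← g.isBaseChange_H1.equiv.finrank_eq, Module.finrank_baseChange]

theorem h0_unit (K : Type u) [Field K] [Algebra k K] : (LB.unit (D := D) K).h0 = 1 := by
  have : Nontrivial (D.A01 K) := (smul_one_injective (D := D) (R := K)).nontrivial
  exact ((LinearEquiv.ofEq _ _ (H0_unit (D := D) (R := K))).finrank_eq).trans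
    (finrank_span_singleton (one_ne_zero (α := D.A01 K)))

/-- The Euler characteristic of the trivial bundle is `1 - g`. -/
theorem chi_unit (K : Type u) [Field K] [Algebra k K] : (LB.unit (D := D) K).chi = 1 - D.genus := by
  rw [chi, h0_unit, h1_unit, Nat.cast_one]

theorem exists_smul_of_mem_H0_hom (L : LB D R) {ψ : (L.hom L).M} (h : ψ ∈ (L.hom L).H0) :
    ∃ r : R, ∀ m : L.M, toMap ψ m = r • m := by
  obtain ⟨a, ha⟩ := (Module.Invertible.toModuleEnd_bijective (D.A01 R) L.M).2 (toMap ψ)
  have ha' : ∀ m, toMap ψ m = a • m := fun m => (LinearMap.congr_fun ha m).symm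
  have hmem : ∀ i, (∀ m ∈ L.L i, toMap ψ m ∈ L.L i) → a ∈ (LB.unit (D := D) R).L i := by
    intro i hi
    let ψi : L.L i →ₗ[D.A R i] L.L i := ((toMap ψ).restrictScalars (D.A R i)).restrict hi
    obtain ⟨b, hb⟩ := (Module.Invertible.toModuleEnd_bijective (D.A R i) (L.L i)).2 ψi
    refine ⟨b, ?_⟩
    refine FaithfulSMul.eq_of_smul_eq_smul (α := L.M) fun m => ?_
    have hm : m ∈ Submodule.span (D.A01 R) (L.L i : Set L.M) := by rw [L.span_L i]; trivial
    induction hm using Submodule.span_induction with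
    | mem x hx =>
      change algebraMap (D.A R i) (D.A01 R) b • x = a • x
      rw [algebraMap_smul, ← ha']
      exact congrArg Subtype.val (LinearMap.congr_fun hb ⟨x, hx⟩)
    | zero => simp
    | add x y _ _ hx hy => rw [smul_add, smul_add, hx, hy]
    | smul c x _ hx => rw [smul_comm, hx, smul_comm]
  have hH0 : a ∈ (LB.unit (D := D) R).H0 := ⟨hmem 0 (mem_hom.1 h.1), hmem 1 (mem_hom.1 h.2)⟩
  obtain ⟨r, rfl⟩ : ∃ r : R, r • (1 : D.A01 R) = a :=
    Submodule.mem_span_singleton.1 (((H0_unit (D := D) (R := R)).le hH0 :) : a ∈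
      Submodule.span R {(1 : D.A01 R)})
  refine ⟨r, fun m => (ha' m).trans ?_⟩
  rw [smul_assoc, one_smul]

/-- An automorphism compatible with a trivialisation at the base point is the identity. -/
theorem eq_refl_of_ev (L : LB D R) (e : L.Iso L) (ψ : L.L 0 →+ R)
    (hψ : ∀ (a : D.A R 0) m, ψ (a • m) = D.evR R a * ψ m) (hsurj : Function.Surjective ψ)
    (h : ∀ m : L.L 0, ψ ⟨e.e m, (e.mem_iff 0 m).2 m.2⟩ = ψ m) : e.e = LinearEquiv.refl _ _ := by
  obtain ⟨r, hr⟩ := L.exists_smul_of_mem_H0_hom (ψ := (e.e : L.M →ₗ[D.A01 R] L.M))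
    ⟨fun m hm => (e.mem_iff 0 m).2 hm, fun m hm => (e.mem_iff 1 m).2 hm⟩
  obtain ⟨m, hm⟩ := hsurj 1
  have he : (⟨e.e m, (e.mem_iff 0 m).2 m.2⟩ : L.L 0) = algebraMap R (D.A R 0) r • m :=
    Subtype.ext ((hr m).trans (algebraMap_smul (D.A R 0) r (m : L.M)).symm)
  have hr1 : r = 1 := by
    have := h m
    rw [he, hψ, AlgHom.commutes, hm, mul_one] at this
    exact this
  exact LinearEquiv.ext fun x => (hr x).trans (by rw [hr1, one_smul]; rfl)

end LB

end Fermat.Agent.Jac

end
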