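import Mathlib.RingTheory.Flat.TorsionFree
import Mathlib.RingTheory.SimpleRing.Principal
import Mathlib.Tactic

/-!
# Algebraic data of a smooth proper curve covered by two affine charts

A curve is described by two finitely generated algebras `B 0`, `B 1`, each finite over the
polynomial ring in its coordinate `t i`, with the common localisation `B01 = (B i)[1 / t i]`, in
which `t 0 * t 1 = 1`. For a test algebra `R` the rings of the product of the curve with `Spec R`
are `A i R = R ⊗ B i` and `A01 R = R ⊗ B01`.
-/

set_option autoImplicit false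

universe u

noncomputable section

open TensorProduct

namespace Fermat.Agent.Jac

/-- The algebra of a smooth proper curve over `k`, with a rational point `ev` in the first chart. -/
structure CurveData (k : Type u) [Field k] where
  /-- the two affine coordinate rings -/
  B : Fin 2 → Type u
  [commRingB : ∀ i, CommRing (B i)]
  [algebraB : ∀ i, Algebra k (B i)]
  /-- the coordinate ring of the overlap -/
  B01 : Type u
  [commRingB01 : CommRing B01]
  [algebraB01 : Algebra k B01]
  /-- the restriction maps -/
  res : ∀ i, B i →ₐ[k] B01
  /-- the two coordinates -/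
  t : ∀ i, B i
  away : ∀ i, @IsLocalization.Away (B i) _ (t i) B01 _ (res i).toRingHom.toAlgebra
  res_t_mul : res 0 (t 0) * res 1 (t 1) = 1
  aeval_t_injective : ∀ i, Function.Injective (Polynomial.aeval (R := k) (t i))
  aeval_t_finite : ∀ i, (Polynomial.aeval (R := k) (t i)).toRingHom.Finite
  finiteType : ∀ i, Algebra.FiniteType k (B i)
  /-- every geometric fibre is an integral smooth curve -/
  isDomain : ∀ (K : Type u) [Field K] [Algebra k K] (i : Fin 2), IsDomain (K ⊗[k] B i)
  isDedekind : ∀ (K : Type u) [Field K] [IsAlgClosed K] [Algebra k K] (i : Fin 2),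
    IsDedekindDomain (K ⊗[k] B i)
  /-- the only global functions are the constants -/
  const : ∀ (b₀ : B 0) (b₁ : B 1), res 0 b₀ = res 1 b₁ → ∃ a : k, b₀ = algebraMap k (B 0) a
  /-- the rational point -/
  ev : B 0 →ₐ[k] k

attribute [instance] CurveData.commRingB CurveData.algebraB CurveData.commRingB01
  CurveData.algebraB01

namespace CurveData

variable {k : Type u} [Field k] (D : CurveData k)

instance algebraB01B (i : Fin 2) : Algebra (D.B i) D.B01 := (D.res i).toRingHom.toAlgebra

instance isLocalizationB01 (i : Fin 2) : IsLocalization.Away (D.t i) D.B01 := D.away i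

variable (R : Type u) [CommRing R] [Algebra k R]

/-- The ring of the `i`-th chart of the curve over `R`. -/
abbrev A (i : Fin 2) : Type u := R ⊗[k] D.B i

/-- The ring of the overlap over `R`. -/
abbrev A01 : Type u := R ⊗[k] D.B01

/-- The restriction map over `R`. -/
def resR (i : Fin 2) : D.A R i →ₐ[R] D.A01 R :=
  Algebra.TensorProduct.map (AlgHom.id R R) (D.res i)

instance algebraA01A (i : Fin 2) : Algebra (D.A R i) (D.A01 R) := (D.resR R i).toRingHom.toAlgebra

instance isScalarTowerA01A (i : Fin 2) : IsScalarTower R (D.A R i) (D.A01 R) :=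
  IsScalarTower.of_algebraMap_eq fun a => ((D.resR R i).commutes a).symm

/-- The restriction of a chart to the overlap on pure tensors. -/
@[simp]
theorem algebraMap_A01_tmul (i : Fin 2) (r : R) (b : D.B i) :
    algebraMap (D.A R i) (D.A01 R) (r ⊗ₜ b) = r ⊗ₜ D.res i b := rfl

/-- The coordinate over `R`. -/
def tR (i : Fin 2) : D.A R i := (1 : R) ⊗ₜ D.t i

/-- The rational point over `R`. -/
def evR : D.A R 0 →ₐ[R] R :=
  Algebra.TensorProduct.lift (AlgHom.id R R) ((Algebra.ofId k R).comp D.ev) fun _ _ => mul_comm _ _

instance isDomainB (i : Fin 2) : IsDomain (D.B i) :=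
  have := D.isDomain k i
  (Algebra.TensorProduct.lid k (D.B i)).symm.toMulEquiv.isDomain

theorem t_ne_zero (i : Fin 2) : D.t i ≠ 0 := fun h =>
  Polynomial.X_ne_zero (D.aeval_t_injective i (by rw [Polynomial.aeval_X, map_zero, h]))

/-- Over the ground field, restriction from a chart to the overlap is injective. -/
theorem res_injective (i : Fin 2) : Function.Injective (D.res i) :=
  IsLocalization.injective (R := D.B i) (M := Submonoid.powers (D.t i)) D.B01
    (powers_le_nonZeroDivisors_of_noZeroDivisors (D.t_ne_zero i))

/-- Restriction from a chart to the overlap is injective. -/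
theorem resR_injective (i : Fin 2) : Function.Injective (algebraMap (D.A R i) (D.A01 R)) :=
  Module.Flat.lTensor_preserves_injective_linearMap (M := R) (D.res i).toLinearMap
    (D.res_injective i)

variable {R} {R' : Type u} [CommRing R'] [Algebra k R']

/-- Functoriality of the chart rings in the test algebra. -/
def mapA (φ : R →ₐ[k] R') (i : Fin 2) : D.A R i →ₐ[k] D.A R' i :=
  Algebra.TensorProduct.map φ (AlgHom.id k (D.B i))

/-- Functoriality of the overlap ring in the test algebra. -/
def mapA01 (φ : R →ₐ[k] R') : D.A01 R →ₐ[k] D.A01 R' :=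
  Algebra.TensorProduct.map φ (AlgHom.id k D.B01)

end CurveData

end Fermat.Agent.Jac

end
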