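import Fermat.Agent.Jac.Curve
import Mathlib.RingTheory.PicardGroup

/-!
# Line bundles on the curve over a test algebra

A line bundle is an invertible module on the overlap with a lattice in each chart.
-/

set_option autoImplicit false

universe u

noncomputable section

open TensorProduct

namespace Fermat.Agent.Jac

variable {k : Type u} [Field k] (D : CurveData k)

/-- A line bundle on the product of the curve with `Spec R`. -/
structure LB (R : Type u) [CommRing R] [Algebra k R] where
  /-- the sections on the overlap -/
  M : Type u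
  [addCommGroup : AddCommGroup M]
  [module01 : Module (D.A01 R) M]
  [moduleBase : Module R M]
  [towerBase : IsScalarTower R (D.A01 R) M]
  [moduleChart : ∀ i, Module (D.A R i) M]
  [towerChart : ∀ i, IsScalarTower (D.A R i) (D.A01 R) M]
  [towerBaseChart : ∀ i, IsScalarTower R (D.A R i) M]
  [invertible : Module.Invertible (D.A01 R) M]
  /-- the sections on the two charts -/
  L : ∀ i, Submodule (D.A R i) M
  invertible_L : ∀ i, Module.Invertible (D.A R i) (L i)
  span_L : ∀ i, Submodule.span (D.A01 R) (L i : Set M) = ⊤

attribute [instance] LB.addCommGroup LB.module01 LB.moduleBase LB.towerBase LB.moduleChart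
  LB.towerChart
  LB.towerBaseChart LB.invertible LB.invertible_L

variable {D} {R : Type u} [CommRing R] [Algebra k R]

namespace LB

/-- The trivial bundle. -/
def unit (R : Type u) [CommRing R] [Algebra k R] : LB D R where
  M := D.A01 R
  L i := LinearMap.range (Algebra.linearMap (D.A R i) (D.A01 R))
  invertible_L i := Module.Invertible.congr
    (LinearEquiv.ofInjective (Algebra.linearMap (D.A R i) (D.A01 R)) (D.resR_injective R i))
  span_L _ := Ideal.eq_top_of_isUnit_mem _ (Submodule.subset_span ⟨1, by simp⟩) isUnit_one

variable (L L' : LB D R)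

/-- Global sections. -/
def H0 : Submodule R L.M := (L.L 0).restrictScalars R ⊓ (L.L 1).restrictScalars R

/-- The range of the Cech differential. -/
def boundary : Submodule R L.M := (L.L 0).restrictScalars R ⊔ (L.L 1).restrictScalars R

/-- First cohomology. -/
abbrev H1 : Type u := L.M ⧸ L.boundary

/-- An isomorphism of line bundles over the same base. -/
structure Iso where
  /-- the map on the overlap -/
  e : L.M ≃ₗ[D.A01 R] L'.M
  mem_iff : ∀ i m, e m ∈ L'.L i ↔ m ∈ L.L i

/-- Two bundles are isomorphic. -/
def Isomorphic : Prop := Nonempty (L.Iso L')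

variable {L L'}

/-- The identity isomorphism. -/
def Iso.refl (L : LB D R) : L.Iso L := ⟨LinearEquiv.refl _ _, fun _ _ => Iff.rfl⟩

/-- The inverse isomorphism. -/
def Iso.symm (f : L.Iso L') : L'.Iso L :=
  ⟨f.e.symm, fun i m => by rw [← f.mem_iff, LinearEquiv.apply_symm_apply]⟩

/-- The composite isomorphism. -/
def Iso.trans {L'' : LB D R} (f : L.Iso L') (g : L'.Iso L'') : L.Iso L'' :=
  ⟨f.e.trans g.e, fun i m => (g.mem_iff i _).trans (f.mem_iff i m)⟩

theorem Isomorphic.refl (L : LB D R) : L.Isomorphic L := ⟨Iso.refl L⟩

/-- Isomorphism of bundles is symmetric. -/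
theorem Isomorphic.symm (h : L.Isomorphic L') : L'.Isomorphic L := ⟨h.some.symm⟩

/-- Isomorphism of bundles is transitive. -/
theorem Isomorphic.trans {L'' : LB D R} (h : L.Isomorphic L') (h' : L'.Isomorphic L'') :
    L.Isomorphic L'' :=
  ⟨h.some.trans h'.some⟩

variable (L)

/-- The bundle is trivial along the rational point. -/
def EvTrivial : Prop :=
  ∃ ψ : L.L 0 →+ R, (∀ (a : D.A R 0) m, ψ (a • m) = D.evR R a * ψ m) ∧ Function.Surjective ψ

variable {R' : Type u} [CommRing R'] [Algebra k R']

/-- A morphism presenting `L'` as the base change of `L` along `φ`. -/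
structure Mor (φ : R →ₐ[k] R') (L : LB D R) (L' : LB D R') where
  /-- the map on the overlap -/
  f : L.M →+ L'.M
  map_smul : ∀ (a : D.A01 R) m, f (a • m) = D.mapA01 φ a • f m
  span_map : ∀ i, Submodule.span (D.A R' i) (f '' (L.L i : Set L.M)) = L'.L i

/-- A base change maps sections to sections. -/
theorem Mor.map_mem {φ : R →ₐ[k] R'} {L : LB D R} {L' : LB D R'} (g : Mor φ L L') {i : Fin 2}
    {m : L.M} (hm : m ∈ L.L i) : g.f m ∈ L'.L i :=
  g.span_map i ▸ Submodule.subset_span ⟨m, hm, rfl⟩

end LB

namespace CurveData

/-- The genus: the dimension of the first cohomology of the trivial bundle. -/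
def genus (D : CurveData k) : ℕ := Module.finrank k (LB.unit (D := D) k).H1

end CurveData

section Field

variable {K : Type u} [Field K] [Algebra k K] (L : LB D K)

/-- Dimension of the global sections. -/
def LB.h0 : ℕ := Module.finrank K L.H0

/-- Dimension of the first cohomology. -/
def LB.h1 : ℕ := Module.finrank K L.H1

/-- Euler characteristic. -/
def LB.chi : ℤ := (L.h0 : ℤ) - L.h1

/-- Degree. -/
def LB.deg : ℤ := L.chi - (LB.unit (D := D) K).chi

end Field

/-- Every geometric fibre has degree zero. -/
def LB.FibreDegZero (L : LB D R) : Prop :=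
  ∀ (K : Type u) [Field K] [IsAlgClosed K] [Algebra k K] (φ : R →ₐ[k] K) (L' : LB D K),
    LB.Mor φ L L' → L'.deg = 0

/-- The point of `Spec R` under a homomorphism to a field. -/
def pointOf {K : Type u} [Field K] [Algebra k K] (φ : R →ₐ[k] K) : PrimeSpectrum R :=
  ⟨RingHom.ker φ, RingHom.ker_isPrime φ⟩

end Fermat.Agent.Jac

end
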