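import Fermat.Agent.Jac.Ops.Point

/-!
# Operations on line bundles: base change, twists, homomorphism bundles, sub-bundles

Collects the files under `Jac/Ops`.
-/
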