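import Fermat.Agent.Jac.Field
import Fermat.Agent.Jac.Sep.Algebra

/-!
# Separatedness: two bundles over a valuation ring which agree generically are isomorphic

A generic isomorphism is scaled to a section of the homomorphism bundle which is nonzero on every
fibre; degree zero makes it an isomorphism on every geometric fibre, hence an isomorphism.
-/

set_option autoImplicit false

universe u

noncomputable section

open TensorProduct

namespace Fermat.Agent.Jac

variable {k : Type u} [Field k] {D : CurveData k}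

namespace Sep

variable {R R' : Type u} [CommRing R] [Algebra k R] [CommRing R'] [Algebra k R'] {φ : R →ₐ[k] R'}
  {L : LB D R} {L' : LB D R'}

/-- The base change map on a lattice. -/
def latticeMap (g : LB.Mor φ L L') (i : Fin 2) : L.L i →+ L'.L i where
  toFun m := ⟨g.f (m : L.M), g.map_mem m.2⟩
  map_zero' := Subtype.ext (map_zero g.f)
  map_add' a b := Subtype.ext (map_add g.f (a : L.M) b)

/-- The base change of a lattice is semilinear. -/
theorem latticeMap_smul (g : LB.Mor φ L L') (i : Fin 2) (a : D.A R i) (m : L.L i) :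
    latticeMap g i (a • m) = (D.mapA φ i).toRingHom a • latticeMap g i m :=
  Subtype.ext (g.f_smul_chart a m.1)

/-- The image of a lattice spans the lattice of the base change. -/
theorem span_latticeMap (g : LB.Mor φ L L') (i : Fin 2) :
    Submodule.span (D.A R' i) (Set.range (latticeMap g i)) = ⊤ := by
  apply Submodule.map_injective_of_injective (L'.L i).injective_subtype
  rw [Submodule.map_span, Submodule.map_top, Submodule.range_subtype, ← Set.range_comp]
  conv_rhs => rw [← g.span_map i, Set.image_eq_range]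
  rfl

/-- An isomorphism of bundles on a lattice. -/
def isoLattice {L L' : LB D R} (e : L.Iso L') (i : Fin 2) : L.L i →ₗ[D.A R i] L'.L i where
  toFun m := ⟨e.e (m : L.M), (e.mem_iff i m).mpr m.2⟩
  map_add' a b := Subtype.ext (map_add e.e a.1 b.1)
  map_smul' a m := Subtype.ext <| by
    show e.e (a • m.1) = a • e.e m.1
    rw [← algebraMap_smul (D.A01 R) a m.1, map_smul, algebraMap_smul]

/-- Sections of a lattice over a fraction field come from the base after clearing a denominator. -/
theorem exists_preimage {V K : Type u} [CommRing V] [IsDomain V] [Algebra k V] [Field K]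
    [Algebra k K] [Algebra V K] [IsScalarTower k V K] [IsFractionRing V K] {L : LB D V}
    {LK : LB D K} (g : LB.Mor (IsScalarTower.toAlgHom k V K) L LK) (i : Fin 2) {y : LK.M}
    (hy : y ∈ LK.L i) :
    ∃ (c : V) (x : L.M), c ≠ 0 ∧ x ∈ L.L i ∧ g.f x = algebraMap V K c • y := by
  have hA : ∀ a : D.A K i, ∃ (c : V) (a' : D.A V i), c ≠ 0 ∧
      D.mapA (IsScalarTower.toAlgHom k V K) i a' = algebraMap V K c • a := by
    intro a
    induction a using TensorProduct.induction_on with
    | zero => exact ⟨1, 0, one_ne_zero, by simp⟩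
    | tmul z b =>
      obtain ⟨⟨v, c⟩, hvc⟩ := IsLocalization.surj (nonZeroDivisors V) z
      refine ⟨c, v ⊗ₜ b, nonZeroDivisors.coe_ne_zero c, ?_⟩
      simp [CurveData.mapA, ← hvc, mul_comm, Algebra.smul_def]
    | add a b ha hb =>
      obtain ⟨c, a', hc, ha'⟩ := ha
      obtain ⟨d, b', hd, hb'⟩ := hb
      refine ⟨c * d, d • a' + c • b', mul_ne_zero hc hd, ?_⟩
      have hsmul : ∀ (v : V) (x : D.A V i), D.mapA (IsScalarTower.toAlgHom k V K) i (v • x) =
          algebraMap V K v • D.mapA (IsScalarTower.toAlgHom k V K) i x := fun v x => by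
        rw [Algebra.smul_def, Algebra.smul_def, map_mul]
        rfl
      rw [map_add, hsmul, hsmul, ha', hb', map_mul, smul_add, ← mul_smul, ← mul_smul,
        mul_comm (algebraMap V K d)]
  rw [← g.span_map i] at hy
  induction hy using Submodule.span_induction with
  | mem y hy =>
    obtain ⟨x, hx, rfl⟩ := hy
    exact ⟨1, x, one_ne_zero, hx, by simp⟩
  | zero => exact ⟨1, 0, one_ne_zero, zero_mem _, by simp⟩
  | add y z _ _ hy hz =>
    obtain ⟨c, x, hc, hx, hxy⟩ := hy
    obtain ⟨d, x', hd, hx', hxz⟩ := hz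
    refine ⟨c * d, d • x + c • x', mul_ne_zero hc hd,
      add_mem (((L.L i).restrictScalars V).smul_mem d hx)
        (((L.L i).restrictScalars V).smul_mem c hx'), ?_⟩
    rw [map_add, LB.Mor.f_smul_base, LB.Mor.f_smul_base, hxy, hxz, map_mul, smul_add]
    simp [← mul_smul, mul_comm]
  | smul a y _ hy =>
    obtain ⟨c, x, hc, hx, hxy⟩ := hy
    obtain ⟨d, a', hd, ha'⟩ := hA a
    refine ⟨d * c, a' • x, mul_ne_zero hd hc, (L.L i).smul_mem _ hx, ?_⟩
    rw [LB.Mor.f_smul_chart, ha', hxy, map_mul, smul_assoc, smul_comm a, ← mul_smul]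

instance nontrivial_A01 [Nontrivial R] : Nontrivial (D.A01 R) := by
  have : Nontrivial D.B01 := (D.res_injective 0).nontrivial
  exact inferInstanceAs (Nontrivial (R ⊗[k] D.B01))

theorem nontrivial_M [Nontrivial R] (L : LB D R) : Nontrivial L.M := by
  by_contra h
  rw [not_nontrivial_iff_subsingleton] at h
  exact one_ne_zero (FaithfulSMul.eq_of_smul_eq_smul (α := L.M) fun m =>
    Subsingleton.elim ((1 : D.A01 R) • m) ((0 : D.A01 R) • m))

/-- A map of bundles of degree zero which is nonzero on every geometric fibre maps the lattices onto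
the lattices. -/
theorem surjective_lattice {L L' : LB D R} {x : (L.hom L').M} (hx : x ∈ (L.hom L').H0)
    (dL : L.FibreDegZero) (dL' : L'.FibreDegZero)
    (hne : ∀ (F : Type u) [Field F] [Algebra k F] (φ : R →ₐ[k] F)
      (H : LB D F) (g : LB.Mor φ (L.hom L') H), g.f x ≠ 0)
    (i : Fin 2) {y : L'.M} (hy : y ∈ L'.L i) : ∃ l ∈ L.L i, LB.toMap x l = y := by
  have hxi : x ∈ (L.hom L').L i := by
    fin_cases i
    · exact hx.1
    · exact hx.2
  let σ : L.L i →ₗ[D.A R i] L'.L i :=
    ((LB.toMap x).restrictScalars (D.A R i)).restrict fun m hm => LB.mem_hom.mp hxi m hm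
  suffices h : LinearMap.range σ = ⊤ by
    obtain ⟨l, hl⟩ := (h ▸ trivial : (⟨y, hy⟩ : L'.L i) ∈ LinearMap.range σ)
    exact ⟨l.1, l.2, congrArg Subtype.val hl⟩
  -- Otherwise the image lies in a coatom, with quotient a residue field `A / P`, embedded in `F`.
  by_contra h
  obtain ⟨N, hN, hle⟩ := (eq_top_or_exists_le_coatom (LinearMap.range σ)).resolve_left h
  obtain ⟨P, hP, ⟨q⟩⟩ := isSimpleModule_iff_quot_maximal.mp (isSimpleModule_iff_isCoatom.mpr hN)
  let := Ideal.Quotient.field P
  let F := AlgebraicClosure (D.A R i ⧸ P)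
  let ρ : D.A R i →ₐ[k] F :=
    (IsScalarTower.toAlgHom k (D.A R i ⧸ P) F).comp (Ideal.Quotient.mkₐ k P)
  let φ : R →ₐ[k] F := ρ.comp (IsScalarTower.toAlgHom k R (D.A R i))
  let χ : D.A F i →ₐ[k] F := Algebra.TensorProduct.lift (AlgHom.id k F)
    (ρ.comp Algebra.TensorProduct.includeRight) fun _ _ => mul_comm _ _
  have hχ : ∀ a, χ (D.mapA φ i a) = ρ a := by
    intro a
    induction a using TensorProduct.induction_on with
    | zero => simp
    | tmul r b =>
      simp [χ, φ, CurveData.mapA, ← map_mul, Algebra.TensorProduct.tmul_mul_tmul]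
    | add a b ha hb => simp [ha, hb]
  let : Module (D.A F i) F := Module.compHom F χ.toRingHom
  let gF := L.toBaseChange φ
  let gF' := L'.toBaseChange φ
  let ψ : L'.L i →+ F :=
    ((algebraMap (D.A R i ⧸ P) F).toAddMonoidHom.comp q.toLinearMap.toAddMonoidHom).comp
      N.mkQ.toAddMonoidHom
  have hψsmul : ∀ (a : D.A R i) m, ψ (a • m) = (D.mapA φ i).toRingHom a • ψ m := fun a m => by
    show algebraMap (D.A R i ⧸ P) F (q (N.mkQ (a • m))) =
      χ (D.mapA φ i a) * algebraMap (D.A R i ⧸ P) F (q (N.mkQ m))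
    rw [hχ, map_smul, map_smul, Algebra.smul_def, map_mul]
    rfl
  obtain ⟨h', hh'⟩ := exists_lift (D.mapA φ i).toRingHom (latticeMap gF' i) (latticeMap_smul gF' i)
    (span_latticeMap gF' i) ψ hψsmul
  -- Over `F` the map is nonzero between bundles of degree zero, hence an isomorphism.
  obtain ⟨e, he⟩ := LB.isomorphic_of_hom _ _ ((gF.hom gF').map_H0 hx) (hne F φ _ (gF.hom gF'))
    (by rw [dL F φ _ gF, dL' F φ _ gF'])
  let eL := isoLattice e i
  -- So the functional vanishing on the image vanishes identically, which is absurd.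
  have h0 : h'.comp eL = 0 := by
    refine LinearMap.ext_on (span_latticeMap gF i) ?_
    rintro _ ⟨l, rfl⟩
    have h1 : eL (latticeMap gF i l) = latticeMap gF' i (σ l) :=
      Subtype.ext ((he _).trans (LB.Mor.hom_apply gF gF' x l.1))
    rw [LinearMap.comp_apply, h1, hh', LinearMap.zero_apply]
    show algebraMap (D.A R i ⧸ P) F (q (N.mkQ (σ l))) = 0
    rw [Submodule.mkQ_apply, (Submodule.Quotient.mk_eq_zero N).mpr (hle ⟨l, rfl⟩), map_zero,
      map_zero]
  refine hN.1 (eq_top_iff.mpr fun m _ => ?_)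
  have hmem : e.e.symm (gF'.f m) ∈ (L.baseChange φ).L i := by
    rw [← e.mem_iff, LinearEquiv.apply_symm_apply]
    exact gF'.map_mem m.2
  have h2 : eL ⟨_, hmem⟩ = latticeMap gF' i m := Subtype.ext (e.e.apply_symm_apply _)
  have h3 : ψ m = 0 := by
    rw [← hh', ← h2, ← LinearMap.comp_apply, h0, LinearMap.zero_apply]
  rw [← Submodule.Quotient.mk_eq_zero N]
  exact q.injective (((algebraMap (D.A R i ⧸ P) F).injective (h3.trans (map_zero _).symm)).trans
    (map_zero q).symm)

end Sep

open _root_.Fermat.Agent.Jac.Sep in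
/-- Bundles of degree zero over a valuation ring which are isomorphic generically are isomorphic. -/
theorem LB.isomorphic_of_generic {V : Type u} [CommRing V] [IsDomain V] [ValuationRing V]
    [Algebra k V] (K : Type u) [Field K] [Algebra k K] [Algebra V K] [IsScalarTower k V K]
    [IsFractionRing V K] {L L' : LB D V} {LK L'K : LB D K} (dL : L.FibreDegZero)
    (dL' : L'.FibreDegZero) (g : LB.Mor (IsScalarTower.toAlgHom k V K) L LK)
    (g' : LB.Mor (IsScalarTower.toAlgHom k V K) L' L'K) (h : LK.Isomorphic L'K) :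
    L.Isomorphic L' := by
  obtain ⟨e⟩ := h
  let gH := g.hom g'
  -- The generic isomorphism is a section `s` of the homomorphism bundle; clear denominators.
  let s : (LK.hom L'K).M := LB.toMap.symm e.e.toLinearMap
  have hs : ∀ j, s ∈ (LK.hom L'K).L j := fun j => LB.mem_hom.mpr fun m hm => (e.mem_iff j m).mpr hm
  have hs0 : s ≠ 0 := fun h0 => by
    have := nontrivial_M LK
    obtain ⟨m, hm⟩ := exists_ne (0 : LK.M)
    exact hm (e.e.injective
      ((LinearMap.congr_fun (congrArg LB.toMap h0) m).trans (map_zero e.e).symm))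
  obtain ⟨c₀, x₀, hc₀, hx₀, hx₀s⟩ := exists_preimage gH 0 (hs 0)
  obtain ⟨c₁, x₁, hc₁, hx₁, hx₁s⟩ := exists_preimage gH 1 (hs 1)
  have hinj : Function.Injective gH.f := injective_of_injective (IsFractionRing.injective V K) gH
  have hx : c₁ • x₀ = c₀ • x₁ := hinj (by
    rw [LB.Mor.f_smul_base, LB.Mor.f_smul_base, hx₀s, hx₁s]
    exact smul_comm _ _ _)
  have hne : c₁ • x₀ ≠ 0 := fun h0 => by
    have h1 := congrArg gH.f h0
    rw [LB.Mor.f_smul_base, hx₀s, map_zero] at h1
    simp only [smul_eq_zero, hs0, or_false] at h1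
    rcases h1 with h1 | h1 <;>
      [exact hc₁ (IsFractionRing.injective V K (h1.trans (map_zero _).symm));
       exact hc₀ (IsFractionRing.injective V K (h1.trans (map_zero _).symm))]
  -- Normalise it to be nonzero on every fibre.
  obtain ⟨c, x, hc, hcx, hfib⟩ := exists_normalised hne
  have hxH : x ∈ (L.hom L').H0 := by
    refine ⟨mem_of_smul_mem _ hc ?_, mem_of_smul_mem _ hc ?_⟩ <;> rw [hcx]
    · exact ((L.hom L').L 0 |>.restrictScalars V).smul_mem c₁ hx₀
    · rw [hx]
      exact ((L.hom L').L 1 |>.restrictScalars V).smul_mem c₀ hx₁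
  -- Then it maps lattices onto lattices, so is an isomorphism.
  have hsurjL := surjective_lattice hxH dL dL' hfib
  have hsurj : Function.Surjective (LB.toMap x) := by
    rw [← LinearMap.range_eq_top, eq_top_iff, ← L'.span_L 0, Submodule.span_le]
    exact fun y hy => ⟨_, (hsurjL 0 hy).choose_spec.2⟩
  have hbij := Module.Invertible.bijective_of_surjective hsurj
  refine ⟨⟨LinearEquiv.ofBijective _ hbij, fun i m => ⟨fun hm => ?_, fun hm => ?_⟩⟩⟩
  · obtain ⟨l, hl, hlm⟩ := hsurjL i hm
    rwa [← hbij.1 hlm]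
  · have hxi : x ∈ (L.hom L').L i := by
      fin_cases i
      · exact hxH.1
      · exact hxH.2
    exact LB.mem_hom.mp hxi m hm

end Fermat.Agent.Jac

end
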